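import Fermat.Agent.S55.T.Spec
import Fermat.Agent.S55.Mackey.Classical
import Fermat.Agent.S55.E1.Lim.Obj
import Mathlib.NumberTheory.Padics.PadicVal.Basic

/-!
# S55 / layer KG, leaf KG-J2 (helper177): the algebraic core

## 1. Orders of twisted intersections
`G` a finite group, `N ⊴ G`, `N ≤ H ≤ G`, `D ≤ G`.
* `card_subgroupOf_dvd_card_twSub` : `|N ∩ D|` divides `|H ∩ x⁻¹ D x|` for every `x`;
* `pow_dvd_card_subgroupOf` : if `p ^ (k + v_p [G : N])` divides `|D|` then `p ^ k` divides
  `|N ∩ D|`;  `pow_dvd_card_twSub` : hence `p ^ k` divides `|H ∩ x⁻¹ D x|`.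

## 2. Divisibility in the cohomology of a class module
* `exists_eq_nsmul_of_cyclic` : in a cyclic group of order `m` with `p ^ k ∣ m`, every element
  killed by `n` with `¬ p ^ k ∣ n` is divisible by `p`;
* `resRangeIso` : `Hⁿ(K, Res_ψ X) ≅ Hⁿ(ψ(K), X)` for an injective `ψ : K →* D`;
* `classModule_div` : if `(X, γ)` is a class module for `D` and `ψ : K →* D` is injective with
  `p ^ k ∣ |K|`, then every class of `H²(K, Res_ψ X)` killed by `n`, `¬ p ^ k ∣ n`, is divisible
  by `p`.

## 3. Divisibility in `H²(H, Coind_φ X)`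
`φ : Dq →* G` injective, `X` a class module for `Dq`, `H ≤ G`.  If `p ^ k` divides the order of
every twisted intersection `H ∩ x⁻¹ φ(Dq) x`, then every class of `H²(H, Res Coind_φ X)` killed
by `n`, `¬ p ^ k ∣ n`, is divisible by `p`  (`coind_div`).
Proof: Mackey–Shapiro decomposition (helper61, `Mackey/Shapiro.lean`) + `classModule_div`.
Reusable: `ev1`, `coindLift_ev1_bijective` (`Coind_φ X ≅ Coind_{φ(Dq)} X`).

## 4. Cohomology of a finite product of modules
* `map_id_add`, `map_id_sum` : `groupCohomology.map (MonoidHom.id G) · n` is additive in the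
  coefficient morphism;
* `piIncl A i : A i ⟶ piRep A` and `sum_piProj_piIncl : ∑ i, piProj A i ≫ piIncl A i = 𝟙`;
* `class_eq_sum` : every class of `Hⁿ(G, ∏ A i)` is the sum of its components;
* `exists_eq_nsmul_of_components` : a class of `Hⁿ(G, ∏ A i)` all of whose components are divisible
  by `p` is divisible by `p`;  `eq_zero_of_components` : a class all of whose components vanish
  is zero.
-/

set_option autoImplicit false
set_option linter.unusedSectionVars false

open CategoryTheory groupCohomology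

namespace Fermat.Agent.S55.KG.H177

section Degree
open Fermat.Agent.S55.Mackey

variable {G : Type} [Group G]

/-- Conjugation by `x⁻¹` maps `N ∩ D` into `H ∩ x⁻¹ D x` (`N` normal, `N ≤ H`). -/
def conjIncl (N H D : Subgroup G) [hN : N.Normal] (hNH : N ≤ H) (x : G) :
    ↥(N.subgroupOf D) →* ↥(twSub H.subtype D x) where
  toFun d := ⟨⟨x⁻¹ * ((d : D) : G) * x, hNH (by
      have h := hN.conj_mem _ (Subgroup.mem_subgroupOf.1 d.2) x⁻¹
      rwa [inv_inv] at h)⟩, by
    rw [mem_twSub]
    have h : x * (x⁻¹ * ((d : D) : G) * x) * x⁻¹ = ((d : D) : G) := by group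
    change x * (x⁻¹ * ((d : D) : G) * x) * x⁻¹ ∈ D
    rw [h]
    exact (d : D).2⟩
  map_one' := by
    apply Subtype.ext
    apply Subtype.ext
    change x⁻¹ * (1 : G) * x = 1
    group
  map_mul' a b := by
    apply Subtype.ext
    apply Subtype.ext
    change x⁻¹ * (((a : D) : G) * ((b : D) : G)) * x =
      (x⁻¹ * ((a : D) : G) * x) * (x⁻¹ * ((b : D) : G) * x)
    group

lemma conjIncl_injective (N H D : Subgroup G) [N.Normal] (hNH : N ≤ H) (x : G) :
    Function.Injective (conjIncl N H D hNH x) := by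
  intro a b hab
  have h : x⁻¹ * ((a : D) : G) * x = x⁻¹ * ((b : D) : G) * x :=
    congrArg (fun t : ↥(twSub H.subtype D x) => ((t : H) : G)) hab
  apply Subtype.ext
  apply Subtype.ext
  exact mul_left_cancel (mul_right_cancel h)

/-- `|N ∩ D|` divides `|H ∩ x⁻¹ D x|`. -/
theorem card_subgroupOf_dvd_card_twSub (N H D : Subgroup G) [N.Normal] (hNH : N ≤ H) (x : G) :
    Nat.card (N.subgroupOf D) ∣ Nat.card (twSub H.subtype D x) :=
  Subgroup.card_dvd_of_injective _ (conjIncl_injective N H D hNH x)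

variable [Finite G]

/-- If `p ^ (k + v_p [G : N])` divides `|D|`, then `p ^ k` divides `|N ∩ D|`. -/
theorem pow_dvd_card_subgroupOf (N D : Subgroup G) [N.Normal] {p : ℕ} (hp : p.Prime) (k : ℕ)
    (h : p ^ (k + padicValNat p N.index) ∣ Nat.card D) :
    p ^ k ∣ Nat.card (N.subgroupOf D) := by
  have : Fact p.Prime := ⟨hp⟩
  have hcard : Nat.card (N.subgroupOf D) * N.relIndex D = Nat.card D :=
    Subgroup.card_mul_index (N.subgroupOf D)
  have hr : N.relIndex D ∣ N.index := Subgroup.relIndex_dvd_index_of_normal N D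
  have hg : N.index ≠ 0 := Subgroup.index_ne_zero_of_finite
  have hr0 : N.relIndex D ≠ 0 := fun h0 => hg (Nat.eq_zero_of_zero_dvd (h0 ▸ hr))
  have ha0 : Nat.card (N.subgroupOf D) ≠ 0 := Nat.card_pos.ne'
  rw [← hcard] at h
  have h1 := (padicValNat_dvd_iff_le (mul_ne_zero ha0 hr0)).1 h
  rw [padicValNat.mul ha0 hr0] at h1
  have h2 : padicValNat p (N.relIndex D) ≤ padicValNat p N.index :=
    (padicValNat_dvd_iff_le hg).1 (pow_padicValNat_dvd.trans hr)
  exact (padicValNat_dvd_iff_le ha0).2 (by omega)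

/-- If `p ^ (k + v_p [G : N])` divides `|D|`, then `p ^ k` divides `|H ∩ x⁻¹ D x|`. -/
theorem pow_dvd_card_twSub (N H D : Subgroup G) [N.Normal] (hNH : N ≤ H) {p : ℕ}
    (hp : p.Prime) (k : ℕ) (h : p ^ (k + padicValNat p N.index) ∣ Nat.card D) (x : G) :
    p ^ k ∣ Nat.card (twSub H.subtype D x) :=
  (pow_dvd_card_subgroupOf N D hp k h).trans (card_subgroupOf_dvd_card_twSub N H D hNH x)
end Degree

section LocalDiv
noncomputable section

/-- In a cyclic group of order `m` (generator `a`) with `p ^ k ∣ m`, every element killed by `n`,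
where `¬ p ^ k ∣ n`, is divisible by `p`. -/
theorem exists_eq_nsmul_of_cyclic {M : Type*} [AddCommGroup M] (a : M) (m : ℕ)
    (hgen : ∀ x : M, ∃ z : ℤ, x = z • a)
    (hord : ∀ z : ℤ, z • a = 0 → (m : ℤ) ∣ z)
    {p : ℕ} (hp : p.Prime) {k n : ℕ} (hk : p ^ k ∣ m) (hn : ¬ p ^ k ∣ n)
    (c : M) (hc : n • c = 0) : ∃ w : M, c = p • w := by
  obtain ⟨z, rfl⟩ := hgen c
  have h1 : ((n : ℤ) * z) • a = 0 := by
    rw [mul_smul, natCast_zsmul]
    exact hc
  have h2 : ((p ^ k : ℕ) : ℤ) ∣ (n : ℤ) * z :=
    (Int.natCast_dvd_natCast.2 hk).trans (hord _ h1)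
  have hpz : (p : ℤ) ∣ z := by
    by_contra hcon
    have hcop : IsCoprime ((p ^ k : ℕ) : ℤ) z := by
      rw [Nat.cast_pow]
      exact IsCoprime.pow_left
        (((Nat.prime_iff_prime_int.1 hp).coprime_iff_not_dvd).2 hcon)
    have h3 : ((p ^ k : ℕ) : ℤ) ∣ (n : ℤ) := hcop.dvd_of_dvd_mul_right h2
    exact hn (Int.natCast_dvd_natCast.1 h3)
  obtain ⟨z', rfl⟩ := hpz
  exact ⟨z' • a, by rw [mul_smul, natCast_zsmul]⟩

section Transport

variable {D K : Type} [Group D] [Group K]

/-- `H²(K, Res_ψ X) ≃+ H²(ψ(K), X)` for an injective homomorphism `ψ`. -/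
def resRangeIso (X : Rep.{0} ℤ D) (ψ : K →* D) (hψ : Function.Injective ψ) (n : ℕ) :
    groupCohomology (Rep.res ψ X) n ≅ groupCohomology (T.resSub X ψ.range) n :=
  groupCohomology.mapIso (A := T.resSub X ψ.range) (B := Rep.res ψ X)
    (MonoidHom.ofInjective hψ) (@LinearEquiv.refl ℤ X.V _ _ X.hV2)
    (fun _ => rfl) n

end Transport

variable {D : Type} [Group D] [Finite D]

/-- Divisibility by `p` in `H²` of subgroups of a class module. -/
theorem classModule_div_sub (X : Rep.{0} ℤ D) (γ : groupCohomology X 2)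
    (hγ : T.IsClassModule X γ) (H : Subgroup D)
    {p : ℕ} (hp : p.Prime) {k n : ℕ} (hk : p ^ k ∣ Nat.card H) (hn : ¬ p ^ k ∣ n)
    (c : groupCohomology (T.resSub X H) 2) (hc : n • c = 0) :
    ∃ w : groupCohomology (T.resSub X H) 2, c = p • w := by
  obtain ⟨-, h2, h3, -⟩ := hγ H
  refine exists_eq_nsmul_of_cyclic ((T.resMap X H 2).hom γ) (Nat.card H) ?_ ?_ hp hk hn c hc
  · intro x
    obtain ⟨z, hz⟩ := h2 x
    exact ⟨z, hz.trans (int_smul_eq_zsmul _ z _)⟩
  · intro z hz
    obtain ⟨d, hd⟩ := h3 z ((int_smul_eq_zsmul _ z _).trans hz)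
    exact ⟨d, hd⟩

/-- Divisibility by `p` in `H²(K, Res_ψ X)` for a class module `X` and an injective `ψ`. -/
theorem classModule_div {K : Type} [Group K] (X : Rep.{0} ℤ D) (γ : groupCohomology X 2)
    (hγ : T.IsClassModule X γ) (ψ : K →* D) (hψ : Function.Injective ψ)
    {p : ℕ} (hp : p.Prime) {k n : ℕ} (hk : p ^ k ∣ Nat.card K) (hn : ¬ p ^ k ∣ n)
    (c : groupCohomology (Rep.res ψ X) 2) (hc : n • c = 0) :
    ∃ w : groupCohomology (Rep.res ψ X) 2, c = p • w := by
  have hcard : Nat.card ψ.range = Nat.card K :=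
    (Nat.card_congr (MonoidHom.ofInjective hψ).toEquiv).symm
  set e := resRangeIso X ψ hψ 2 with he
  have hc' : n • e.hom.hom c = 0 := by rw [← map_nsmul, hc, map_zero]
  obtain ⟨w, hw⟩ := classModule_div_sub X γ hγ ψ.range hp (hcard ▸ hk) hn _ hc'
  refine ⟨e.inv.hom w, ?_⟩
  have h1 : e.inv.hom (e.hom.hom c) = c := by
    rw [← ModuleCat.comp_apply, Iso.hom_inv_id]
    rfl
  rw [← h1, hw, map_nsmul]

end
end LocalDiv

section MackeyDiv
open Fermat.Agent.S55.Mackey

noncomputable section

variable {G Dq : Type} [Group G] [Group Dq]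

section Lift

variable (φ : Dq →* G) (hφ : Function.Injective φ) (X : Rep.{0} ℤ Dq)

/-- The inverse of `φ` on its range. -/
def rangeInv : ↥φ.range →* Dq := (MonoidHom.ofInjective hφ).symm.toMonoidHom

lemma rangeInv_apply (d : Dq) : rangeInv φ hφ ⟨φ d, d, rfl⟩ = d :=
  (MonoidHom.ofInjective hφ).symm_apply_apply d

lemma apply_rangeInv (d : ↥φ.range) : φ (rangeInv φ hφ d) = (d : G) := by
  obtain ⟨_, d', rfl⟩ := d
  rw [rangeInv_apply]

lemma rangeInv_injective : Function.Injective (rangeInv φ hφ) :=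
  (MonoidHom.ofInjective hφ).symm.injective

/-- `X` as a module over the range of `φ`. -/
abbrev rangeRep : Rep.{0} ℤ ↥φ.range := Rep.res (rangeInv φ hφ) X

/-- Evaluation at `1`: `Coind_φ X → X`, equivariant for `φ(Dq)`. -/
def ev1 : Rep.res φ.range.subtype (Rep.coind φ X) ⟶ rangeRep φ hφ X :=
  Fermat.Agent.S55.E1.Lim.semiOfAdd φ.range.subtype (A := Rep.coind φ X)
    (B := rangeRep φ hφ X)
    { toFun := fun f => f.1 1
      map_zero' := rfl
      map_add' := fun _ _ => rfl }
    (fun d f => by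
      change f.1 (1 * (d : G)) = X.ρ (rangeInv φ hφ d) (f.1 1)
      rw [← f.2 (rangeInv φ hφ d) 1, apply_rangeInv, one_mul, mul_one])

@[simp] lemma ev1_hom_apply (f : (Rep.coind φ X).V) : (ev1 φ hφ X).hom f = f.1 1 := rfl

lemma coindLift_ev1_apply (f : (Rep.coind φ X).V) (g : G) :
    ((coindLift (ev1 φ hφ X)).hom f).1 g = f.1 g := by
  rw [coindLift_hom_apply]
  change f.1 (1 * g) = f.1 g
  rw [one_mul]

lemma coindLift_ev1_bijective : Function.Bijective (coindLift (ev1 φ hφ X)).hom := by
  constructor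
  · intro f f' h
    apply Subtype.ext
    funext g
    have h1 : ((coindLift (ev1 φ hφ X)).hom f).1 g = ((coindLift (ev1 φ hφ X)).hom f').1 g :=
      congrArg (fun t => t.1 g) h
    rwa [coindLift_ev1_apply, coindLift_ev1_apply] at h1
  · intro f'
    refine ⟨⟨f'.1, fun d g => ?_⟩, ?_⟩
    · have h := f'.2 ⟨φ d, d, rfl⟩ g
      change f'.1 (φ d * g) = X.ρ (rangeInv φ hφ ⟨φ d, d, rfl⟩) (f'.1 g) at h
      rw [rangeInv_apply] at h
      exact h
    · apply Subtype.ext
      funext g
      exact coindLift_ev1_apply φ hφ X _ g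

end Lift

variable [Finite Dq]

/-- **Divisibility in `H²(H, Res Coind_φ X)`.** -/
theorem coind_div (φ : Dq →* G) (hφ : Function.Injective φ) (X : Rep.{0} ℤ Dq)
    (γ : groupCohomology X 2) (hγ : T.IsClassModule X γ) (H : Subgroup G)
    {p : ℕ} (hp : p.Prime) {k n : ℕ} (hn : ¬ p ^ k ∣ n)
    (hk : ∀ x : G, p ^ k ∣ Nat.card (twSub H.subtype φ.range x))
    (y : groupCohomology (Rep.res H.subtype (Rep.coind φ X)) 2) (hy : n • y = 0) :
    ∃ w : groupCohomology (Rep.res H.subtype (Rep.coind φ X)) 2, y = p • w := by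
  have hsys := isMackeySystem_doset H.subtype φ.range
  have hbij := mackey_bijective_of_bijective (k := ℤ) (Subgroup.subtype_injective H) hsys
    (ev1 φ hφ X) (coindLift_ev1_bijective φ hφ X) 2
  -- components
  have hcomp : ∀ i : DoubleCoset.Quotient (φ.range : Set G) (H.subtype.range : Set G),
      ∃ w : groupCohomology (Rep.res (twHom H.subtype φ.range i.out) (rangeRep φ hφ X)) 2,
        (groupCohomology.map (twSub H.subtype φ.range i.out).subtype
          (twEv hsys (ev1 φ hφ X) i) 2).hom y = p • w := by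
    intro i
    have hinj : Function.Injective
        ((rangeInv φ hφ).comp (twHom H.subtype φ.range i.out)) :=
      (rangeInv_injective φ hφ).comp (hsys.κ_injective (Subgroup.subtype_injective H) i)
    exact classModule_div X γ hγ _ hinj hp (hk i.out) hn _
      (by rw [← map_nsmul, hy, map_zero])
  choose w hw using hcomp
  obtain ⟨w₀, hw₀⟩ := hbij.2 w
  refine ⟨w₀, hbij.1 ?_⟩
  funext i
  have h1 := congrFun hw₀ i
  simp only at h1
  show (groupCohomology.map _ (twEv hsys (ev1 φ hφ X) i) 2).hom y =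
    (groupCohomology.map _ (twEv hsys (ev1 φ hφ X) i) 2).hom (p • w₀)
  rw [map_nsmul, h1, hw i]

end
end MackeyDiv

section Prod
open Fermat.Agent.S55.E1.Lim

noncomputable section

attribute [local instance 10000] Rep.hV2
attribute [local instance 9000] Pi.module

variable {G : Type} [Group G]

theorem cochainsMap_id_add {A B : Rep.{0} ℤ G} (f g : A ⟶ B) :
    cochainsMap (MonoidHom.id G) (f + g) =
      cochainsMap (MonoidHom.id G) f + cochainsMap (MonoidHom.id G) g :=
  (cochainsFunctor ℤ G).map_add (f := f) (g := g)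

/-- `groupCohomology.map` is additive in the coefficient morphism. -/
theorem map_id_add {A B : Rep.{0} ℤ G} (f g : A ⟶ B) (n : ℕ) :
    groupCohomology.map (MonoidHom.id G) (f + g) n =
      groupCohomology.map (MonoidHom.id G) f n + groupCohomology.map (MonoidHom.id G) g n := by
  have h : groupCohomology.map (MonoidHom.id G) (f + g) n =
      HomologicalComplex.homologyMap (cochainsMap (MonoidHom.id G) f +
        cochainsMap (MonoidHom.id G) g) n := by
    rw [← cochainsMap_id_add]
  rw [h, HomologicalComplex.homologyMap_add]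
  rfl

theorem map_id_zero {A B : Rep.{0} ℤ G} (n : ℕ) :
    groupCohomology.map (MonoidHom.id G) (0 : A ⟶ B) n = 0 :=
  (groupCohomology.functor ℤ G n).map_zero A B

theorem map_id_sum {ι : Type} {A B : Rep.{0} ℤ G} (s : Finset ι) (f : ι → (A ⟶ B))
    (n : ℕ) :
    groupCohomology.map (MonoidHom.id G) (∑ i ∈ s, f i) n =
      ∑ i ∈ s, groupCohomology.map (MonoidHom.id G) (f i) n := by
  classical
  induction s using Finset.induction_on with
  | empty => simpa using map_id_zero (A := A) (B := B) n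
  | insert a s ha ih => rw [Finset.sum_insert ha, Finset.sum_insert ha, map_id_add, ih]

theorem map_id_comp_apply {A B C : Rep.{0} ℤ G} (f : A ⟶ B) (g : B ⟶ C) (n : ℕ)
    (y : groupCohomology A n) :
    (groupCohomology.map (MonoidHom.id G) (f ≫ g) n).hom y =
      (groupCohomology.map (MonoidHom.id G) g n).hom
        ((groupCohomology.map (MonoidHom.id G) f n).hom y) := by
  have h : groupCohomology.map (MonoidHom.id G) (f ≫ g) n =
      groupCohomology.map (MonoidHom.id G) f n ≫ groupCohomology.map (MonoidHom.id G) g n :=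
    groupCohomology.map_id_comp f g n
  rw [h]
  rfl

theorem map_id_id_apply {A : Rep.{0} ℤ G} (n : ℕ) (y : groupCohomology A n) :
    (groupCohomology.map (MonoidHom.id G) (𝟙 A) n).hom y = y := by
  have h : groupCohomology.map (MonoidHom.id G) (𝟙 A) n = 𝟙 _ := groupCohomology.map_id n
  rw [h]
  rfl

variable {ι : Type} [Fintype ι] [DecidableEq ι]

/-- The inclusion of a factor into the product. -/
def piIncl (A : ι → Rep.{0} ℤ G) (i : ι) : A i ⟶ piRep A :=
  homOfAdd
    { toFun := fun x => piOf (fun j => if h : i = j then h ▸ x else 0)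
      map_zero' := piRep_ext fun j => by
        show (if h : i = j then h ▸ (0 : (A i).V) else 0) = 0
        split_ifs with h
        · subst h; rfl
        · rfl
      map_add' := fun x y => piRep_ext fun j => by
        show (if h : i = j then h ▸ (x + y) else 0) =
          (if h : i = j then h ▸ x else 0) + (if h : i = j then h ▸ y else 0)
        split_ifs with h
        · subst h; rfl
        · exact (add_zero _).symm }
    (fun g x => piRep_ext fun j => by
      show (if h : i = j then h ▸ ((A i).ρ g x) else 0) =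
        (A j).ρ g (if h : i = j then h ▸ x else 0)
      split_ifs with h
      · subst h; rfl
      · exact (map_zero _).symm)

lemma piTo_piIncl_self (A : ι → Rep.{0} ℤ G) (i : ι) (x : (A i).V) :
    piTo ((piIncl A i).hom x) i = x := by
  show (if h : i = i then h ▸ x else 0) = x
  rw [dif_pos rfl]

lemma piTo_piIncl_ne (A : ι → Rep.{0} ℤ G) {i j : ι} (h : i ≠ j) (x : (A i).V) :
    piTo ((piIncl A i).hom x) j = 0 := by
  show (if h : i = j then h ▸ x else 0) = 0
  rw [dif_neg h]

lemma sum_piIncl_apply (A : ι → Rep.{0} ℤ G) (x : (piRep A).V) :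
    ∑ i, (piIncl A i).hom (piTo x i) = x := by
  apply piRep_ext
  intro j
  have h1 : piTo (∑ i, (piIncl A i).hom (piTo x i)) j =
      ∑ i, piTo ((piIncl A i).hom (piTo x i)) j := by
    have := map_sum (piProj A j).hom (fun i => (piIncl A i).hom (piTo x i)) Finset.univ
    exact this
  rw [h1, Finset.sum_eq_single j]
  · exact piTo_piIncl_self A j _
  · intro i _ hij
    exact piTo_piIncl_ne A hij _
  · intro h
    exact absurd (Finset.mem_univ j) h

/-- `∑ i, pr_i ≫ incl_i = 𝟙`. -/
theorem sum_piProj_piIncl (A : ι → Rep.{0} ℤ G) :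
    ∑ i, piProj A i ≫ piIncl A i = 𝟙 (piRep A) := by
  apply Rep.hom_ext
  apply DFunLike.ext
  intro x
  rw [Rep.sum_hom]
  have h : (∑ i, (piProj A i ≫ piIncl A i).hom) x =
      ∑ i, (piIncl A i).hom (piTo x i) := by
    rw [Representation.IntertwiningMap.sum_apply]
    rfl
  rw [h, sum_piIncl_apply]
  rfl

/-- Every class of `Hⁿ(G, ∏ A i)` is the sum of its components. -/
theorem class_eq_sum (A : ι → Rep.{0} ℤ G) (n : ℕ) (y : groupCohomology (piRep A) n) :
    y = ∑ i, (groupCohomology.map (MonoidHom.id G) (piIncl A i) n).hom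
      ((groupCohomology.map (MonoidHom.id G) (piProj A i) n).hom y) := by
  have h1 := map_id_id_apply (A := piRep A) n y
  rw [← sum_piProj_piIncl A, map_id_sum] at h1
  have h2 : (∑ i, groupCohomology.map (MonoidHom.id G) (piProj A i ≫ piIncl A i) n).hom y =
      ∑ i, (groupCohomology.map (MonoidHom.id G) (piProj A i ≫ piIncl A i) n).hom y := by
    rw [ModuleCat.hom_sum, LinearMap.sum_apply]
  rw [h2] at h1
  refine h1.symm.trans (Finset.sum_congr rfl fun i _ => ?_)
  exact map_id_comp_apply _ _ n y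

/-- A class of `Hⁿ(G, ∏ A i)` all of whose components are divisible by `p` is divisible by
`p`. -/
theorem exists_eq_nsmul_of_components (A : ι → Rep.{0} ℤ G) (n p : ℕ)
    (y : groupCohomology (piRep A) n)
    (h : ∀ i, ∃ w : groupCohomology (A i) n,
      (groupCohomology.map (MonoidHom.id G) (piProj A i) n).hom y = p • w) :
    ∃ w : groupCohomology (piRep A) n, y = p • w := by
  choose w hw using h
  refine ⟨∑ i, (groupCohomology.map (MonoidHom.id G) (piIncl A i) n).hom (w i), ?_⟩
  rw [Finset.smul_sum]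
  conv_lhs => rw [class_eq_sum A n y]
  refine Finset.sum_congr rfl fun i _ => ?_
  rw [hw i, map_nsmul]

/-- A class of `Hⁿ(G, ∏ A i)` all of whose components vanish is zero. -/
theorem eq_zero_of_components (A : ι → Rep.{0} ℤ G) (n : ℕ)
    (y : groupCohomology (piRep A) n)
    (h : ∀ i, (groupCohomology.map (MonoidHom.id G) (piProj A i) n).hom y = 0) : y = 0 := by
  rw [class_eq_sum A n y]
  refine Finset.sum_eq_zero fun i _ => ?_
  rw [h i, map_zero]

end
end Prod

end Fermat.Agent.S55.KG.H177
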