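import Fermat.Agent.S55.KG.Spec
import Fermat.Agent.S55.KG.JDivH177.Core
import Fermat.Agent.S55.H414.CycloMain
import Fermat.Agent.S55.E1.H175.GD2
import Fermat.Agent.S55.T.CoresH572

/-!
# S55 / layer KG, leaf KG-J2 (helper177): `jDiv : JDivSpec`

For `p ∈ S` and `U` open, every class of `H²(HU U L, J(F))` becomes divisible by `p` at a higher
level of the tower.

Proof.  Let `n = |HU U L|`; it kills the class `x`.  Choose `k` with `¬ p ^ k ∣ n` and a level
`L' ≥ L, L₀` (`L₀.U ≤ U`) all of whose local degrees at the primes of `S` are divisible by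
`p ^ (k + v_p |Gal(B/ℚ)|)`, `B = L·L₀` (cyclotomic levels, helper414).  Then `p ^ k` divides the
order of every twisted intersection `HU U L' ∩ x⁻¹ D_q x` (`Core.lean` §1), so by the
Mackey–Shapiro decomposition and local class field theory every class of `H²(HU U L', J_q(F'))`
killed by `n` is divisible by `p` (`Core.lean` §2, §3); finally `J = ∏_q J_q` (`Core.lean` §4).
-/

set_option autoImplicit false

open CategoryTheory groupCohomology

namespace Fermat.Agent.S55.KG.H177

open Fermat.Agent.S55 Fermat.Agent.S55.Tow Fermat.Agent.S55.E1.Lim Fermat.Agent.S55.KG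
open Fermat.Agent.S55.Mackey ExtCitation

noncomputable section

variable {S : Finset Nat.Primes}

/-! ## Cardinalities in the tower -/

/-- The order of the decomposition group at `q` is the local degree. -/
theorem card_dec_eq_relIndex (L : Level S) (q : Nat.Primes) :
    Nat.card (L.Dec q) = L.F.fixingSubgroup.relIndex (primeLocalToGlobal q).range := by
  have h1 : Nat.card (L.Dec q) = (L.V q).index := (Subgroup.index_eq_card (L.V q)).symm
  rw [h1]
  exact Subgroup.index_comap L.U (locQ q)

theorem card_range_decHom (L : Level S) (q : Nat.Primes) :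
    Nat.card (L.decHom q).range = L.F.fixingSubgroup.relIndex (primeLocalToGlobal q).range := by
  rw [← card_dec_eq_relIndex]
  exact (Nat.card_congr (MonoidHom.ofInjective (L.decHom_injective q)).toEquiv).symm

theorem proj_surjective177 {L L' : Level S} (h : L ≤ L') : Function.Surjective (Level.proj h) := by
  intro x
  induction x using QuotientGroup.induction_on with
  | H g => exact ⟨QuotientGroup.mk g, rfl⟩

theorem index_relGal {L L' : Level S} (h : L ≤ L') :
    (Level.relGal h).index = Nat.card L.Gal := by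
  unfold Level.relGal
  rw [Subgroup.index_ker, MonoidHom.range_eq_top.2 (proj_surjective177 h), Subgroup.card_top]

instance relGal_normal177 {L L' : Level S} (h : L ≤ L') : (Level.relGal h).Normal := by
  unfold Level.relGal
  infer_instance

theorem relGal_le_HU (U : Subgroup GQ) {L L' : Level S} (h : L ≤ L') (hU : L.U ≤ U) :
    Level.relGal h ≤ HU U L' := by
  intro x hx
  induction x using QuotientGroup.induction_on with
  | H g =>
    have h1 : (QuotientGroup.mk g : L.Gal) = 1 := hx
    rw [QuotientGroup.eq_one_iff] at h1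
    exact ⟨g, hU h1, rfl⟩

/-! ## Divisibility at a high level -/

lemma nsmul_hom_eq_zero177 {A B : ModuleCat.{0} ℤ} (f : A ⟶ B) (n : ℕ) (y : A)
    (hy : n • y = 0) : n • f.hom y = 0 := by
  rw [← map_nsmul, hy, map_zero]

/-- At a level `L' ≥ B` (`B.U ≤ U`) with large local degrees, every class of
`H²(HU U L', J_q(F'))` killed by `n` is divisible by `p`. -/
theorem level_div_at (U : Subgroup GQ) {B L' : Level S} (hB : B ≤ L') (hU : B.U ≤ U)
    {p : ℕ} (hp : p.Prime) {k n : ℕ} (hn : ¬ p ^ k ∣ n) (q : Nat.Primes)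
    (hdeg : p ^ (k + padicValNat p (Nat.card B.Gal)) ∣
      L'.F.fixingSubgroup.relIndex (primeLocalToGlobal q).range)
    (y : groupCohomology (Rep.res (HU U L').subtype (L'.J q)) 2) (hy : n • y = 0) :
    ∃ w : groupCohomology (Rep.res (HU U L').subtype (L'.J q)) 2, y = p • w := by
  obtain ⟨γ, hγ⟩ := E1.H175.exists_isClassModule_locUnits L' q
  refine coind_div (L'.decHom q) (L'.decHom_injective q) (L'.locUnits q) γ hγ (HU U L') hp hn
    (fun x => ?_) y hy
  refine pow_dvd_card_twSub (Level.relGal hB) (HU U L') (L'.decHom q).range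
    (relGal_le_HU U hB hU) hp k ?_ x
  rw [index_relGal, card_range_decHom]
  exact hdeg

/-- The restriction of `J(F')` to `HU U L'`, as a product. -/
abbrev JU (U : Subgroup GQ) (L' : Level S) : Rep.{0} ℤ ↥(HU U L') :=
  piRep (fun q : S => Rep.res (HU U L').subtype (L'.J q.1))

lemma JU_eq (U : Subgroup GQ) (L' : Level S) :
    JU U L' = Rep.res (HU U L').subtype (Jtot L') := rfl

/-- At a level `L' ≥ B` (`B.U ≤ U`) with large local degrees at all primes of `S`, every class of
`H²(HU U L', J(F'))` killed by `n` is divisible by `p`. -/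
theorem level_div (U : Subgroup GQ) {B L' : Level S} (hB : B ≤ L') (hU : B.U ≤ U)
    {p : ℕ} (hp : p.Prime) {k n : ℕ} (hn : ¬ p ^ k ∣ n)
    (hdeg : ∀ q ∈ S, p ^ (k + padicValNat p (Nat.card B.Gal)) ∣
      L'.F.fixingSubgroup.relIndex (primeLocalToGlobal q).range)
    (y : groupCohomology (JU U L') 2) (hy : n • y = 0) :
    ∃ w : groupCohomology (JU U L') 2, y = p • w := by
  classical
  have key : ∀ q : S, ∃ w : groupCohomology (Rep.res (HU U L').subtype (L'.J q.1)) 2,
      (groupCohomology.map (MonoidHom.id ↥(HU U L'))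
        (piProj (fun q : S => Rep.res (HU U L').subtype (L'.J q.1)) q) 2).hom y = p • w := by
    intro q
    have h0 : n • (groupCohomology.map (MonoidHom.id ↥(HU U L'))
        (piProj (fun q : S => Rep.res (HU U L').subtype (L'.J q.1)) q) 2).hom y = 0 :=
      nsmul_hom_eq_zero177 _ n y hy
    exact level_div_at U hB hU hp hn q.1 (hdeg q.1 q.2) _ h0
  exact exists_eq_nsmul_of_components
    (fun q : S => Rep.res (HU U L').subtype (L'.J q.1)) 2 p y key

/-! ## The leaf -/

/-- **KG-J2.** -/
theorem jDiv : JDivSpec := by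
  intro S p hp hpS U hU L x
  obtain ⟨L₀, hL₀⟩ := hU
  have : Fact p.Prime := ⟨hp⟩
  -- the order of the group kills `x`
  have hx : Nat.card (HU U L) • x = 0 :=
    T.H572.cardTorsion ℤ (HU U L) (Rep.res (HU U L).subtype (Jtot L)) 2 (by norm_num) x
  have hn : ¬ p ^ Nat.card (HU U L) ∣ Nat.card (HU U L) := fun h =>
    absurd (Nat.le_of_dvd Nat.card_pos h) (not_le.2 (Nat.lt_pow_self hp.one_lt))
  -- the levels
  set B : Level S := E1.H603.levelSup L L₀ with hBdef
  have hLB : L ≤ B := E1.H603.le_levelSup_left L L₀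
  have hBU : B.U ≤ U := (Level.U_anti (E1.H603.le_levelSup_right L L₀)).trans hL₀
  obtain ⟨F₁, hF₁, hgal, -, hdiv⟩ := H414.exists_level_forall_pow_dvd_relIndex p S hpS S
    (Nat.card (HU U L) + padicValNat p (Nat.card B.Gal))
  set L₁ : Level S := E1.H603.levelOfGalois F₁ hF₁ hgal with hL₁def
  set L' : Level S := E1.H603.levelSup B L₁ with hL'def
  have hBL' : B ≤ L' := E1.H603.le_levelSup_left B L₁
  have hL₁L' : L₁ ≤ L' := E1.H603.le_levelSup_right B L₁
  have hLL' : L ≤ L' := hLB.trans hBL'
  have hdeg : ∀ q ∈ S, p ^ (Nat.card (HU U L) + padicValNat p (Nat.card B.Gal)) ∣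
      L'.F.fixingSubgroup.relIndex (primeLocalToGlobal q).range := fun q hq =>
    (hdiv q hq).trans (H414.relIndex_fixingSubgroup_dvd_of_le hL₁L' _)
  have hy : Nat.card (HU U L) • ((resU U (sysJ S)).infl hLL' 2).hom x = 0 :=
    nsmul_hom_eq_zero177 ((resU U (sysJ S)).infl hLL' 2) _ x hx
  exact ⟨L', hLL', level_div U hBL' hBU hp hn hdeg
    (((resU U (sysJ S)).infl hLL' 2).hom x) hy⟩

end

end Fermat.Agent.S55.KG.H177
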